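import Fermat.Agent.ClassBound.Quotient

/-!
# The number of stable cyclic `p`-subgroups from a bound on their orders

If on no curve a stable subgroup of order prime to `p` stands beside a stable cyclic one of order
`p ^ (d + 1)`, then there are at most `2` stable cyclic `p`-subgroups for `d = 1`; at most `4`
(`p = 2`) or `3` (`p` odd, with a nonsquare unit) for `d = 2`; at most `4` for `p = 3`, `d = 3`
and `8` for `p = 2`, `d = 4`. Moving to a quotient shortens the longest chain.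
-/

set_option autoImplicit false
set_option linter.style.haveILetI false
set_option linter.unusedSectionVars false

noncomputable section

open WeierstrassCurve FA.KerPoly
open scoped WeierstrassCurve.Affine

local notation "Qb" => AlgebraicClosure ℚ

namespace FA.ClassBound

/-- No curve has a stable cyclic subgroup of order `p ^ (d + 1) * m`. -/
def Bad (p d m : ℕ) : Prop :=
  ∀ (E : WeierstrassCurve ℚ) [E.IsElliptic], ¬ HasStableOrder E (p ^ (d + 1) * m)

variable {p d m : ℕ} {E : WeierstrassCurve ℚ} [E.IsElliptic]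

theorem le_of_bad (hp : p.Prime) (hco : p.Coprime m) (hbad : Bad p d m)
    (hm : HasStableOrder E m) {g : (E.toAffine⁄Qb).Point} {a : ℕ} (hg : addOrderOf g = p ^ a)
    (hst : Stab g) : a ≤ d := by
  by_contra hlt
  refine hbad E (HasStableOrder.mul (hco.pow_left (d + 1))
    (m := p ^ (d + 1)) (n := m) ⟨p ^ (a - (d + 1)) • g, ?_, hst.nsmul _⟩ hm)
  rw [addOrderOf_nsmul' _ (pow_ne_zero _ hp.ne_zero), hg,
    Nat.gcd_eq_right (Nat.pow_dvd_pow p (Nat.sub_le a (d + 1))),
    Nat.pow_div (Nat.sub_le a (d + 1)) hp.pos]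
  congr 1
  omega

/-- Two independent stable subgroups are short together. -/
theorem false_of_independent (hp : p.Prime) (hco : p.Coprime m) (hbad : Bad p d m)
    (hm : HasStableOrder E m) {g h : (E.toAffine⁄Qb).Point} {A B : ℕ} (hA : 1 ≤ A)
    (hg : addOrderOf g = p ^ A) (hgst : Stab g) (hh : addOrderOf h = p ^ B) (hhst : Stab h)
    (htop : p ^ (B - 1) • h ∉ AddSubgroup.zmultiples g) (hlong : d + 1 ≤ A + B) : False := by
  obtain ⟨E', hE', θ, hθ⟩ := exists_quot hgst (by rw [hg]; exact pow_ne_zero _ hp.ne_zero)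
  obtain ⟨P, hP, htP⟩ := exists_lift hp hA hg hh fun _ => htop
  obtain ⟨ho, hs, -⟩ := hθ.lift hp hA hg hh hhst hP htP
  have := le_of_bad hp hco hbad (hθ.hasStableOrder (by rw [hg]; exact hco.pow_left A) hm) ho hs
  omega

theorem level_subset (E : WeierstrassCurve ℚ) [E.IsElliptic] (a : ℕ) :
    level E p a ⊆ AddSubgroup.zmultiples ''
      {x : (E.toAffine⁄Qb).Point | p ^ a • x = 0} := by
  rintro _ ⟨g, hg, -, rfl⟩
  exact ⟨g, by rw [Set.mem_ofPred_eq, ← hg, addOrderOf_nsmul_eq_zero], rfl⟩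

theorem level_finite (hp : p.Prime) (E : WeierstrassCurve ℚ) [E.IsElliptic] (a : ℕ) :
    (level E p a).Finite := by
  refine (Set.Finite.image _ ?_).subset (level_subset E a)
  haveI : Finite (Submodule.torsionBy ℤ (E.toAffine⁄Qb).Point ((p ^ a : ℕ) : ℤ)) :=
    Nat.finite_of_card_ne_zero (by
      rw [natCard_torsion _ (pow_ne_zero a hp.ne_zero)]
      exact pow_ne_zero 2 (pow_ne_zero a hp.ne_zero))
  exact (Set.finite_range
    (Subtype.val : Submodule.torsionBy ℤ (E.toAffine⁄Qb).Point ((p ^ a : ℕ) : ℤ) → _)).subset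
      fun x hx => ⟨⟨x, mem_torsion.2 hx⟩, rfl⟩

theorem level_zero : level E p 0 ⊆ {⊥} := by
  rintro _ ⟨g, hg, -, rfl⟩
  rw [pow_zero, AddMonoid.addOrderOf_eq_one_iff] at hg
  rw [hg, Set.mem_singleton_iff, AddSubgroup.zmultiples_zero_eq_bot]

theorem lineSet_finite (hp : p.Prime) (hco : p.Coprime m) (hbad : Bad p d m)
    (hm : HasStableOrder E m) : (lineSet E p).Finite := by
  refine ((Finset.range (d + 1)).finite_toSet.biUnion fun a _ => level_finite hp E a).subset ?_
  rintro _ ⟨a, g, hg, hst, rfl⟩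
  exact Set.mem_biUnion (Finset.mem_coe.2 (Finset.mem_range.2 (Nat.lt_succ_of_le
    (le_of_bad hp hco hbad hm hg hst)))) ⟨g, hg, hst, rfl⟩

/-- **A step**: the quotient by a stable line of order `p` has at least as many subgroups. -/
theorem exists_step (hp : p.Prime) (hco : p.Coprime m) (hbad : Bad p d m)
    (hm : HasStableOrder E m) {l : (E.toAffine⁄Qb).Point} (hl : addOrderOf l = p) (hst : Stab l) :
    ∃ (E' : WeierstrassCurve ℚ) (_ : E'.IsElliptic)
      (θ : (E.toAffine⁄Qb).Point →+ (E'.toAffine⁄Qb).Point), IsQuot θ l ∧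
      HasStableOrder E' m ∧ (lineSet E p).ncard ≤ (lineSet E' p).ncard := by
  obtain ⟨E', hE', θ, hθ⟩ := exists_quot hst (by rw [hl]; exact hp.ne_zero)
  have hm' := hθ.hasStableOrder (by rwa [hl]) hm
  exact ⟨E', hE', θ, hθ, hm', Set.ncard_le_ncard_of_injOn (moveMap p θ l)
    (fun H hH => hθ.moveMap_mem hp hl hH) (hθ.moveMap_injOn hp hl)
    (lineSet_finite hp hco hbad hm')⟩

/-- The top of a cyclic group lies on at most one of two independent lines. -/
theorem top_or (hp : p.Prime) {x M Y : (E.toAffine⁄Qb).Point} {b c : ℕ}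
    (hM : addOrderOf M = p ^ b) (hMx : p ^ (b - 1) • M ∉ AddSubgroup.zmultiples x)
    (hY : addOrderOf Y = p ^ c) (hc : 1 ≤ c) :
    p ^ (c - 1) • Y ∉ AddSubgroup.zmultiples x ∨ p ^ (c - 1) • Y ∉ AddSubgroup.zmultiples M := by
  by_contra! h
  have ht := order_top hp hY hc
  have h0 : p • (p ^ (c - 1) • Y) = 0 :=
    (congrArg (fun k => k • (p ^ (c - 1) • Y)) ht.symm).trans (addOrderOf_nsmul_eq_zero _)
  have hb : 1 ≤ b := by
    by_contra hb
    obtain rfl : b = 0 := by omega
    rw [pow_zero, AddMonoid.addOrderOf_eq_one_iff] at hM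
    exact ne_zero_of_order hp ht (by simpa [hM] using h.2)
  exact hMx (AddSubgroup.zmultiples_le_of_mem h.1
    (mem_of_mem_prime hp (order_top hp hM hb) (mem_top hp hM h.2 h0) (ne_zero_of_order hp ht)))

/-- The radius of `E` is at most `r`. -/
def Within (E : WeierstrassCurve ℚ) [E.IsElliptic] (p r : ℕ) : Prop :=
  lineSet E p ⊆ ⋃ a ∈ Finset.range (r + 1), level E p a

theorem within_of {r : ℕ}
    (h : ∀ (g : (E.toAffine⁄Qb).Point) (a : ℕ), addOrderOf g = p ^ a → Stab g → a ≤ r) :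
    Within E p r := by
  rintro _ ⟨a, g, hg, hst, rfl⟩
  exact Set.mem_biUnion (Finset.mem_range.2 (Nat.lt_succ_of_le (h g a hg hst))) ⟨g, hg, hst, rfl⟩

/-- For `d = r + 1` one step reaches radius `r`. -/
theorem exists_within (hp : p.Prime) (hco : p.Coprime m) {r : ℕ} (hr : 1 ≤ r)
    (hbad : Bad p (r + 1) m) (hm : HasStableOrder E m) :
    ∃ (E' : WeierstrassCurve ℚ) (_ : E'.IsElliptic), HasStableOrder E' m ∧ Within E' p r ∧
      (lineSet E p).ncard ≤ (lineSet E' p).ncard := by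
  by_cases h : ∃ g : (E.toAffine⁄Qb).Point, addOrderOf g = p ^ (r + 1) ∧ Stab g
  swap
  · refine ⟨E, ‹_›, hm, within_of fun g a hg hst => ?_, le_rfl⟩
    by_contra hlt
    obtain rfl : a = r + 1 := by
      have := le_of_bad hp hco hbad hm hg hst
      omega
    exact h ⟨g, hg, hst⟩
  obtain ⟨g, hg, hst⟩ := h
  have hl := order_top hp hg (Nat.le_add_left 1 r)
  have hlg : p ^ (r + 1 - 1) • g ∈ AddSubgroup.zmultiples g :=
    nsmul_mem (AddSubgroup.mem_zmultiples g) _
  obtain ⟨E', hE', θ, hθ, hm', hle⟩ := exists_step hp hco hbad hm hl (hst.nsmul _)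
  have hx := hθ.drop hp hl hg hlg
  obtain ⟨M, hM, hMst, hMx⟩ := hθ.arm hp hl hg hlg
  refine ⟨E', hE', hm', within_of fun Y c hY hYst => ?_, hle⟩
  by_contra hlt
  rcases top_or hp (b := 1) (x := θ g) (by rwa [pow_one]) (by simpa using hMx) hY (by omega)
    with ht | ht
  · exact false_of_independent hp hco hbad hm' hr hx (hθ.stab hst) hY hYst ht (by omega)
  · exact false_of_independent hp hco hbad hm' le_rfl (by rwa [pow_one]) hMst hY hYst ht
      (by omega)

/-- From a subgroup of order `16` two steps reach radius `2`. -/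
theorem exists_within_of_sixteen (hco : Nat.Coprime 2 m) (hbad : Bad 2 4 m)
    (hm : HasStableOrder E m) {g : (E.toAffine⁄Qb).Point} (hg : addOrderOf g = 2 ^ 4)
    (hst : Stab g) :
    ∃ (E' : WeierstrassCurve ℚ) (_ : E'.IsElliptic), HasStableOrder E' m ∧ Within E' 2 2 ∧
      (lineSet E 2).ncard ≤ (lineSet E' 2).ncard := by
  have hp := Nat.prime_two
  obtain ⟨E₁, hE₁, θ, hθ, hm₁, hle₁⟩ := exists_step hp hco hbad hm
    (order_top hp hg (by norm_num)) (hst.nsmul _)
  have hlg := nsmul_mem (AddSubgroup.mem_zmultiples g) (2 ^ (4 - 1))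
  have hx₁ := hθ.drop hp (order_top hp hg (by norm_num)) hg hlg
  obtain ⟨M, hM, hMst, hMx⟩ := hθ.arm hp (order_top hp hg (by norm_num)) hg hlg
  have hl := order_top hp hx₁ (by norm_num)
  have hlg₁ := nsmul_mem (AddSubgroup.mem_zmultiples (θ g)) (2 ^ (3 - 1))
  obtain ⟨E₂, hE₂, ψ, hψ, hm₂, hle₂⟩ := exists_step hp hco hbad hm₁ hl ((hθ.stab hst).nsmul _)
  have hx₂ := hψ.drop hp hl hx₁ hlg₁
  have hMB : addOrderOf M = 2 ^ 1 := by rwa [pow_one]
  have hlB : addOrderOf (2 ^ (3 - 1) • θ g) = 2 ^ 1 := by rwa [pow_one]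
  obtain ⟨P, hP, htop⟩ := exists_lift hp le_rfl hlB hMB fun _ h =>
    hMx (AddSubgroup.zmultiples_le_of_mem hlg₁ (by simpa using h))
  obtain ⟨ho, hs, -⟩ := hψ.lift hp le_rfl hlB hMB hMst hP htop
  refine ⟨E₂, hE₂, hm₂, within_of fun Y c hY hYst => ?_, hle₁.trans hle₂⟩
  by_contra hlt
  have hM₂ : 2 ^ (1 + 1 - 1) • ψ P ∉ AddSubgroup.zmultiples (ψ (θ g)) := fun h => by
    rw [← map_nsmul, show (2 : ℕ) ^ (1 + 1 - 1) = 2 ^ 1 from rfl, hP] at h
    obtain ⟨j, hj⟩ := AddSubgroup.mem_zmultiples_iff.1 h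
    have hk := (hψ.ker (M - j • θ g)).1 (by rw [map_sub, map_zsmul, hj, sub_self])
    have := add_mem (AddSubgroup.zmultiples_le_of_mem hlg₁ hk)
      (zsmul_mem (AddSubgroup.mem_zmultiples (θ g)) j)
    rw [sub_add_cancel] at this
    exact hMx this
  rcases top_or hp ho hM₂ hY (by omega) with ht | ht
  · exact false_of_independent hp hco hbad hm₂ (by norm_num) hx₂ (hψ.stab (hθ.stab hst)) hY hYst
      ht (by omega)
  · exact false_of_independent hp hco hbad hm₂ (by norm_num) ho hs hY hYst ht (by omega)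

/-- For `p = 2`, `d = 4` some quotient has radius `2`. -/
theorem exists_within_two (hco : Nat.Coprime 2 m) (hbad : Bad 2 4 m) (hm : HasStableOrder E m) :
    ∃ (E' : WeierstrassCurve ℚ) (_ : E'.IsElliptic), HasStableOrder E' m ∧ Within E' 2 2 ∧
      (lineSet E 2).ncard ≤ (lineSet E' 2).ncard := by
  have hp := Nat.prime_two
  by_cases h : ∃ (g : (E.toAffine⁄Qb).Point) (a : ℕ), addOrderOf g = 2 ^ a ∧ Stab g ∧ 3 ≤ a
  swap
  · refine ⟨E, ‹_›, hm, within_of fun g a hg hst => ?_, le_rfl⟩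
    by_contra hlt
    exact h ⟨g, a, hg, hst, by omega⟩
  obtain ⟨g, a, hg, hst, ha⟩ := h
  obtain rfl | rfl : a = 3 ∨ a = 4 := by
    have := le_of_bad hp hco hbad hm hg hst
    omega
  swap
  · exact exists_within_of_sixteen hco hbad hm hg hst
  have hl := order_top hp hg (by norm_num)
  have hlg := nsmul_mem (AddSubgroup.mem_zmultiples g) (2 ^ (3 - 1))
  obtain ⟨E₁, hE₁, θ, hθ, hm₁, hle₁⟩ := exists_step hp hco hbad hm hl (hst.nsmul _)
  have hx := hθ.drop hp hl hg hlg
  obtain ⟨M, hM, hMst, hMx⟩ := hθ.arm hp hl hg hlg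
  by_cases h₁ : ∃ (Y : (E₁.toAffine⁄Qb).Point) (c : ℕ), addOrderOf Y = 2 ^ c ∧ Stab Y ∧ 3 ≤ c
  swap
  · refine ⟨E₁, hE₁, hm₁, within_of fun Y c hY hYst => ?_, hle₁⟩
    by_contra hlt
    exact h₁ ⟨Y, c, hY, hYst, by omega⟩
  obtain ⟨Y, c, hY, hYst, hc⟩ := h₁
  have hMB : addOrderOf M = 2 ^ 1 := by rwa [pow_one]
  rcases top_or hp hMB (x := θ g) (by simpa using hMx) hY (by omega) with ht | ht
  · exact (false_of_independent hp hco hbad hm₁ (by norm_num) hx (hθ.stab hst) hY hYst ht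
      (by omega)).elim
  obtain ⟨E₂, hE₂, ψ, hψ, hm₂, hle₂⟩ := exists_step hp hco hbad hm₁ hM hMst
  obtain ⟨P, hP, htop⟩ := exists_lift hp le_rfl hMB hY fun _ => ht
  obtain ⟨ho, hs, -⟩ := hψ.lift hp le_rfl hMB hY hYst hP htop
  have := le_of_bad hp hco hbad hm₂ ho hs
  obtain rfl : c = 3 := by omega
  obtain ⟨E₃, hE₃, hm₃, hw, hle₃⟩ := exists_within_of_sixteen hco hbad hm₂ ho hs
  exact ⟨E₃, hE₃, hm₃, hw, (hle₁.trans hle₂).trans hle₃⟩

/-- At most one line when two would be too long. -/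
theorem ncard_level_one_le_one (hp : p.Prime) (hco : p.Coprime m) (hbad : Bad p 1 m)
    (hm : HasStableOrder E m) : (level E p 1).ncard ≤ 1 := by
  refine (Set.ncard_le_one (level_finite hp E 1)).2 ?_
  rintro _ ⟨g, hg, hgst, rfl⟩ _ ⟨h, hh, hhst, rfl⟩
  have hg1 : addOrderOf g = p := by rwa [pow_one] at hg
  have hh1 : addOrderOf h = p := by rwa [pow_one] at hh
  by_contra hne
  refine false_of_independent hp hco hbad hm le_rfl hg hgst hh hhst (fun hmem => hne ?_)
    (le_refl 2)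
  rw [Nat.sub_self, pow_zero, one_nsmul] at hmem
  exact le_antisymm (AddSubgroup.zmultiples_le_of_mem (mem_of_mem_prime hp hg1 hmem
    (ne_zero_of_order hp hh1))) (AddSubgroup.zmultiples_le_of_mem hmem)

/-- At most three lines of order `2`. -/
theorem ncard_level_one_two : (level E 2 1).ncard ≤ 3 := by
  haveI : Finite (Submodule.torsionBy ℤ (E.toAffine⁄Qb).Point ((2 : ℕ) : ℤ)) :=
    Nat.finite_of_card_ne_zero (by rw [natCard_torsion 2 two_ne_zero]; norm_num)
  set A := Submodule.torsionBy ℤ (E.toAffine⁄Qb).Point ((2 : ℕ) : ℤ)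
  have hsub : level E 2 1 ⊆
      (fun x : A => AddSubgroup.zmultiples x.1) '' ((Set.univ : Set A) \ {0}) := by
    rintro _ ⟨g, hg, -, rfl⟩
    refine ⟨⟨g, mem_torsion.2 ((congrArg (· • g) (pow_one 2).symm).trans
      (hg ▸ addOrderOf_nsmul_eq_zero g))⟩, ⟨trivial, fun h => ?_⟩, rfl⟩
    exact ne_zero_of_order Nat.prime_two (by rwa [pow_one] at hg) (congrArg Subtype.val h)
  refine (Set.ncard_le_ncard hsub (Set.toFinite _)).trans ((Set.ncard_image_le).trans ?_)
  rw [Set.ncard_sdiff_singleton_of_mem (Set.mem_univ _), Set.ncard_univ,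
    natCard_torsion 2 two_ne_zero]
  norm_num

/-- At most two lines of order `p` with a nonsquare unit. -/
theorem ncard_level_one_odd (hp : p.Prime) {u : ℕ} (hu : u.Coprime p)
    (hns : ∀ c : ZMod p, c ^ 2 ≠ u) : (level E p 1).ncard ≤ 2 := by
  by_contra h
  obtain ⟨H₁, h₁, H₂, h₂, H₃, h₃, n12, n13, n23⟩ :=
    (Set.two_lt_ncard_iff (level_finite hp E 1)).1 (not_le.1 h) |> fun ⟨a, b, c, ha, hb, hc, r⟩ =>
      (⟨a, ha, b, hb, c, hc, r⟩ : ∃ a, a ∈ level E p 1 ∧ ∃ b, b ∈ level E p 1 ∧ ∃ c,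
        c ∈ level E p 1 ∧ a ≠ b ∧ a ≠ c ∧ b ≠ c)
  obtain ⟨g₁, o₁, s₁, rfl⟩ := h₁
  obtain ⟨g₂, o₂, s₂, rfl⟩ := h₂
  obtain ⟨g₃, o₃, s₃, rfl⟩ := h₃
  set g : Fin 3 → (E.toAffine⁄Qb).Point := ![g₁, g₂, g₃]
  rw [pow_one] at o₁ o₂ o₃
  have ho : ∀ i, addOrderOf (g i) = p := fun i => by fin_cases i <;> assumption
  refine false_of_three hp.ne_zero (g := g) ho (fun i => by fin_cases i <;> assumption)
    (fun i j hij => disjoint_of_top hp (k := 1) (by rw [pow_one]; exact ho j) ?_) hu hns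
  intro hmem
  rw [Nat.sub_self, pow_zero, one_nsmul] at hmem
  have heq : AddSubgroup.zmultiples (g i) = AddSubgroup.zmultiples (g j) :=
    le_antisymm (AddSubgroup.zmultiples_le_of_mem (mem_of_mem_prime hp (ho i) hmem
      (ne_zero_of_order hp (ho j)))) (AddSubgroup.zmultiples_le_of_mem hmem)
  fin_cases i <;> fin_cases j <;> first
    | exact hij rfl
    | exact n12 heq
    | exact n13 heq
    | exact n23 heq
    | exact n12 heq.symm
    | exact n13 heq.symm
    | exact n23 heq.symm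

/-- A line has one child fewer than the most lines of a curve. -/
theorem ncard_children_le (hp : p.Prime) {k : ℕ}
    (hk : ∀ (E' : WeierstrassCurve ℚ) [E'.IsElliptic], (level E' p 1).ncard ≤ k + 1)
    {l : (E.toAffine⁄Qb).Point} (hl : addOrderOf l = p) (hst : Stab l) :
    {H ∈ level E p 2 | l ∈ H}.ncard ≤ k := by
  obtain ⟨E', hE', θ, hθ⟩ := exists_quot hst (by rw [hl]; exact hp.ne_zero)
  set C := {H ∈ level E p 2 | l ∈ H}
  have hfin : C.Finite := (level_finite hp E 2).subset fun H hH => hH.1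
  have hbot : (⊥ : AddSubgroup (E.toAffine⁄Qb).Point) ∉ C := fun h =>
    ne_zero_of_order hp hl (by simpa using h.2)
  have hmaps : ∀ H ∈ insert ⊥ C, moveMap p θ l H ∈ level E' p 1 := by
    rintro H (rfl | ⟨⟨g, hg, hgst, rfl⟩, hlg⟩)
    · have hlB : addOrderOf l = p ^ 1 := by rwa [pow_one]
      obtain ⟨P, hP, htop⟩ := exists_lift hp le_rfl hlB (h := 0) (B := 0) (by simp)
        fun h => absurd h (by omega)
      obtain ⟨ho, hs, hkey⟩ := hθ.lift hp le_rfl (B := 0) hlB (by simp) (fun σ => ⟨0, by simp⟩)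
        hP htop
      rw [moveMap, if_neg fun h => ne_zero_of_order hp hl (by simpa using h)]
      refine ⟨θ P, ho, hs, le_antisymm (AddSubgroup.zmultiples_le_of_mem ⟨P, ?_, rfl⟩) ?_⟩
      · simpa [AddSubgroup.mem_comap] using hP
      · rintro _ ⟨X, hX, rfl⟩
        exact hkey X (by simpa [AddSubgroup.mem_comap] using hX)
    · rw [moveMap, if_pos hlg]
      exact ⟨θ g, by rw [pow_one]; exact hθ.drop hp hl (a := 1) hg hlg |>.trans (pow_one p),
        hθ.stab hgst, (AddMonoidHom.map_zmultiples θ g).symm⟩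
  have hsub : insert ⊥ C ⊆ lineSet E p := by
    rintro H (rfl | hH)
    · exact ⟨0, 0, by simp, fun σ => ⟨0, by simp⟩, AddSubgroup.zmultiples_zero_eq_bot⟩
    · exact ⟨2, hH.1⟩
  have := Set.ncard_le_ncard_of_injOn _ hmaps ((hθ.moveMap_injOn hp hl).mono hsub)
    (level_finite hp E' 1)
  rw [Set.ncard_insert_of_notMem hbot hfin] at this
  have := hk E'
  omega

/-- Level two is bounded by the parents times the children. -/
theorem ncard_level_two_le (hp : p.Prime) {k q : ℕ}
    (hk : ∀ (E' : WeierstrassCurve ℚ) [E'.IsElliptic], (level E' p 1).ncard ≤ k + 1)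
    (hq : ((fun H => H.map (nsmulAddMonoidHom p)) '' level E p 2).ncard ≤ q) :
    (level E p 2).ncard ≤ k * q := by
  classical
  have hfin := level_finite hp E 2
  have := Finset.card_le_mul_card_image (f := fun H => H.map (nsmulAddMonoidHom p))
    hfin.toFinset k fun L hL => ?_
  · rw [Set.ncard_eq_toFinset_card _ hfin]
    refine this.trans (Nat.mul_le_mul_left _ ?_)
    rw [← Set.ncard_coe_finset, Finset.coe_image, Set.Finite.coe_toFinset]
    exact hq
  · obtain ⟨H, hH, rfl⟩ := Finset.mem_image.1 hL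
    obtain ⟨g, hg, hst, rfl⟩ := hfin.mem_toFinset.1 hH
    have hl : addOrderOf (p • g) = p := by simpa using order_top hp hg (by norm_num)
    refine le_trans ?_ (ncard_children_le hp hk hl (hst.nsmul p))
    rw [← Set.ncard_coe_finset]
    refine Set.ncard_le_ncard (fun H' hH' => ?_) (hfin.subset fun H' hH' => hH'.1)
    simp only [Finset.coe_filter, Set.mem_ofPred_eq, Set.Finite.mem_toFinset] at hH'
    refine ⟨hH'.1, ?_⟩
    obtain ⟨g', -, -, rfl⟩ := id hH'.1
    have h1 : p • g ∈ (AddSubgroup.zmultiples g').map (nsmulAddMonoidHom p) := by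
      rw [hH'.2]
      exact ⟨g, AddSubgroup.mem_zmultiples g, rfl⟩
    obtain ⟨X, hX, hXe⟩ := h1
    rw [← hXe]
    exact nsmul_mem hX p

theorem ncard_le_radius_one (hp : p.Prime) {k : ℕ} (hw : Within E p 1)
    (h1 : (level E p 1).ncard ≤ k) : (lineSet E p).ncard ≤ 1 + k := by
  refine (Set.ncard_le_ncard (t := {⊥} ∪ level E p 1) (fun H hH => ?_)
    ((Set.finite_singleton _).union (level_finite hp E 1))).trans
    ((Set.ncard_union_le _ _).trans (by rw [Set.ncard_singleton]; omega))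
  obtain ⟨a, ha, hHa⟩ := Set.mem_iUnion₂.1 (hw hH)
  have := Finset.mem_range.1 ha
  obtain rfl | rfl : a = 0 ∨ a = 1 := by omega
  exacts [Or.inl (level_zero hHa), Or.inr hHa]

theorem ncard_le_radius_two (hp : p.Prime) {k q : ℕ} (hw : Within E p 2)
    (h1 : (level E p 1).ncard ≤ k) (h2 : (level E p 2).ncard ≤ q) :
    (lineSet E p).ncard ≤ 1 + k + q := by
  refine (Set.ncard_le_ncard (t := {⊥} ∪ level E p 1 ∪ level E p 2) (fun H hH => ?_)
    (((Set.finite_singleton _).union (level_finite hp E 1)).union (level_finite hp E 2))).trans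
    ((Set.ncard_union_le _ _).trans (Nat.add_le_add
      ((Set.ncard_union_le _ _).trans (by rw [Set.ncard_singleton]; omega)) h2))
  obtain ⟨a, ha, hHa⟩ := Set.mem_iUnion₂.1 (hw hH)
  have := Finset.mem_range.1 ha
  obtain rfl | rfl | rfl : a = 0 ∨ a = 1 ∨ a = 2 := by omega
  exacts [Or.inl (Or.inl (level_zero hHa)), Or.inl (Or.inr hHa), Or.inr hHa]

/-- At most two for `d = 1`. -/
theorem ncard_le_two (hp : p.Prime) (hco : p.Coprime m) (hbad : Bad p 1 m)
    (hm : HasStableOrder E m) : (lineSet E p).ncard ≤ 2 :=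
  ncard_le_radius_one hp (within_of fun _ _ hg hst => le_of_bad hp hco hbad hm hg hst)
    (ncard_level_one_le_one hp hco hbad hm)

/-- At most four for `p = 2`, `d = 2`. -/
theorem ncard_le_four_two (hco : Nat.Coprime 2 m) (hbad : Bad 2 2 m) (hm : HasStableOrder E m) :
    (lineSet E 2).ncard ≤ 4 := by
  obtain ⟨E', hE', hm', hw, hle⟩ := exists_within Nat.prime_two hco le_rfl hbad hm
  exact hle.trans (ncard_le_radius_one Nat.prime_two hw ncard_level_one_two)

/-- At most three for odd `p` with `d = 2`. -/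
theorem ncard_le_three (hp : p.Prime) (hco : p.Coprime m) {u : ℕ} (hu : u.Coprime p)
    (hns : ∀ c : ZMod p, c ^ 2 ≠ u) (hbad : Bad p 2 m) (hm : HasStableOrder E m) :
    (lineSet E p).ncard ≤ 3 := by
  obtain ⟨E', hE', hm', hw, hle⟩ := exists_within hp hco le_rfl hbad hm
  exact hle.trans (ncard_le_radius_one hp hw (ncard_level_one_odd hp hu hns))

/-- At most four for `p = 3`, `d = 3`. -/
theorem ncard_le_four_three (hco : Nat.Coprime 3 m) (hbad : Bad 3 3 m) (hm : HasStableOrder E m) :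
    (lineSet E 3).ncard ≤ 4 := by
  have h1 : ∀ (E' : WeierstrassCurve ℚ) [E'.IsElliptic], (level E' 3 1).ncard ≤ 1 + 1 :=
    fun E' _ => ncard_level_one_odd Nat.prime_three (u := 2) (by norm_num) (by decide)
  obtain ⟨E', hE', hm', hw, hle⟩ := exists_within Nat.prime_three hco (r := 2) one_le_two hbad hm
  refine hle.trans (ncard_le_radius_two Nat.prime_three hw (h1 E')
    (ncard_level_two_le Nat.prime_three h1 (q := 1) ?_))
  refine (Set.ncard_le_one ((level_finite Nat.prime_three E' 2).image _)).2 ?_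
  rintro _ ⟨_, ⟨g, hg, hgst, rfl⟩, rfl⟩ _ ⟨_, ⟨h, hh, hhst, rfl⟩, rfl⟩
  simp only [AddMonoidHom.map_zmultiples]
  by_contra hne
  refine false_of_independent Nat.prime_three hco hbad hm' one_le_two hg hgst hh hhst
    (fun hmem => hne ?_) (le_refl 4)
  have hog := order_top Nat.prime_three hg one_le_two
  have hoh := order_top Nat.prime_three hh one_le_two
  have h3 : (3 : ℕ) • (3 ^ (2 - 1) • h) = 0 :=
    (congrArg (fun k => k • (3 ^ (2 - 1) • h)) hoh.symm).trans (addOrderOf_nsmul_eq_zero _)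
  have hm1 := mem_top Nat.prime_three hg hmem h3
  have := le_antisymm
    (AddSubgroup.zmultiples_le_of_mem (mem_of_mem_prime Nat.prime_three hog hm1
      (ne_zero_of_order Nat.prime_three hoh)))
    (AddSubgroup.zmultiples_le_of_mem hm1)
  simpa using this

/-- At most eight for `p = 2`, `d = 4`. -/
theorem ncard_le_eight (hco : Nat.Coprime 2 m) (hbad : Bad 2 4 m) (hm : HasStableOrder E m) :
    (lineSet E 2).ncard ≤ 8 := by
  have h1 : ∀ (E' : WeierstrassCurve ℚ) [E'.IsElliptic], (level E' 2 1).ncard ≤ 2 + 1 :=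
    fun E' _ => ncard_level_one_two
  obtain ⟨E', hE', hm', hw, hle⟩ := exists_within_two hco hbad hm
  refine hle.trans (ncard_le_radius_two Nat.prime_two hw (h1 E')
    (ncard_level_two_le Nat.prime_two h1 (q := 2) ?_))
  by_contra h
  obtain ⟨a, b, c, ha, hb, hc, nab, nac, nbc⟩ :=
    (Set.two_lt_ncard_iff ((level_finite Nat.prime_two E' 2).image _)).1 (not_le.1 h)
  obtain ⟨_, ⟨g₁, o₁, s₁, rfl⟩, rfl⟩ := ha
  obtain ⟨_, ⟨g₂, o₂, s₂, rfl⟩, rfl⟩ := hb
  obtain ⟨_, ⟨g₃, o₃, s₃, rfl⟩, rfl⟩ := hc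
  simp only [AddMonoidHom.map_zmultiples] at nab nac nbc
  set g : Fin 3 → (E'.toAffine⁄Qb).Point := ![g₁, g₂, g₃]
  have ho : ∀ i, addOrderOf (g i) = 2 ^ 2 := fun i => by fin_cases i <;> assumption
  refine false_of_three (n := 2 ^ 2) (by norm_num) (g := g) ho
    (fun i => by fin_cases i <;> assumption)
    (fun i j hij => disjoint_of_top Nat.prime_two (ho j) fun hmem => ?_)
    (u := 3) (by norm_num) (by decide)
  have hti := order_top Nat.prime_two (ho i) one_le_two
  have htj := order_top Nat.prime_two (ho j) one_le_two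
  have h2 : (2 : ℕ) • (2 ^ (2 - 1) • g j) = 0 :=
    (congrArg (fun k => k • (2 ^ (2 - 1) • g j)) htj.symm).trans (addOrderOf_nsmul_eq_zero _)
  have hm1 := mem_top Nat.prime_two (ho i) hmem h2
  have heq : AddSubgroup.zmultiples (2 • g i) = AddSubgroup.zmultiples (2 • g j) := by
    simpa using le_antisymm
      (AddSubgroup.zmultiples_le_of_mem (mem_of_mem_prime Nat.prime_two hti hm1
        (ne_zero_of_order Nat.prime_two htj)))
      (AddSubgroup.zmultiples_le_of_mem hm1)
  fin_cases i <;> fin_cases j <;> first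
    | exact hij rfl
    | exact nab heq
    | exact nac heq
    | exact nbc heq
    | exact nab heq.symm
    | exact nac heq.symm
    | exact nbc heq.symm

end FA.ClassBound

end
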