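import Fermat.Agent.ClassBound.Torsion
import Fermat.Agent.Root.SummaryQuotientCurve
import Fermat.Agent.Root.SummaryTateModules
import Fermat.Agent.Root.SummaryX0FifteenTwentyOne

/-!
# Stable cyclic subgroups of prime power order under an isogeny

The quotient by a stable line of order `p` carries the stable cyclic `p`-subgroups injectively to
those of the quotient curve, and two independent ones of orders `p ^ A`, `p ^ B` make one of order
`p ^ (A + B)` on a quotient curve.
-/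

set_option autoImplicit false
set_option linter.style.haveILetI false
set_option linter.unusedSectionVars false

noncomputable section

open WeierstrassCurve FA.KerPoly
open scoped WeierstrassCurve.Affine

local notation "Qb" => AlgebraicClosure ℚ
local notation "GQ" => AlgebraicClosure ℚ ≃ₐ[ℚ] AlgebraicClosure ℚ

namespace FA.ClassBound

variable {E E' : WeierstrassCurve ℚ} [E.IsElliptic] [E'.IsElliptic]

/-- An equivariant homomorphism with kernel the multiples of `l`. -/
structure IsQuot (θ : (E.toAffine⁄Qb).Point →+ (E'.toAffine⁄Qb).Point)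
    (l : (E.toAffine⁄Qb).Point) : Prop where
  gal : ∀ (σ : GQ) X, θ (Affine.Point.map σ.toAlgHom X) = Affine.Point.map σ.toAlgHom (θ X)
  ker : ∀ X, θ X = 0 ↔ X ∈ AddSubgroup.zmultiples l

theorem IsQuot.stab {θ : (E.toAffine⁄Qb).Point →+ (E'.toAffine⁄Qb).Point}
    {l g : (E.toAffine⁄Qb).Point} (hθ : IsQuot θ l) (hg : Stab g) : Stab (θ g) := fun σ => by
  obtain ⟨c, hc⟩ := hg σ
  exact ⟨c, by rw [← hθ.gal, ← hc, map_zsmul]⟩

/-- The quotient exists. -/
theorem exists_quot {l : (E.toAffine⁄Qb).Point} (hl : Stab l) (hfin : addOrderOf l ≠ 0) :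
    ∃ (E' : WeierstrassCurve ℚ) (_ : E'.IsElliptic)
      (θ : (E.toAffine⁄Qb).Point →+ (E'.toAffine⁄Qb).Point), IsQuot θ l := by
  set G := AddSubgroup.zmultiples l with hG
  haveI : Finite G := Nat.finite_of_card_ne_zero (by rwa [hG, Nat.card_zmultiples])
  have hst : ∀ σ : GQ, ∀ X ∈ G, σ • X ∈ G := fun σ X hX => by
    obtain ⟨k, rfl⟩ := AddSubgroup.mem_zmultiples_iff.1 hX
    obtain ⟨c, hc⟩ := hl σ
    refine AddSubgroup.mem_zmultiples_iff.2 ⟨k * c, ?_⟩
    show _ = Affine.Point.map σ.toAlgHom _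
    rw [map_zsmul, ← hc, mul_zsmul]
  obtain ⟨E', hE', -, -, θ, -, hθ, hker⟩ :=
    @FA.Summary.exists_quotient_curve ℚ _ _ _ E _ G ‹Finite G› hst
  exact ⟨E', hE', θ, hθ, fun X => ⟨fun h => hker.le h, fun h => hker.ge h⟩⟩

/-- The stable cyclic subgroups of order `p ^ a`. -/
def level (E : WeierstrassCurve ℚ) [E.IsElliptic] (p a : ℕ) :
    Set (AddSubgroup (E.toAffine⁄Qb).Point) :=
  {H | ∃ g, addOrderOf g = p ^ a ∧ Stab g ∧ AddSubgroup.zmultiples g = H}

/-- The stable cyclic subgroups of `p`-power order. -/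
def lineSet (E : WeierstrassCurve ℚ) [E.IsElliptic] (p : ℕ) :
    Set (AddSubgroup (E.toAffine⁄Qb).Point) :=
  {H | ∃ a, H ∈ level E p a}

variable {p : ℕ}

theorem order_top (hp : p.Prime) {g : (E.toAffine⁄Qb).Point} {a : ℕ} (hg : addOrderOf g = p ^ a)
    (ha : 1 ≤ a) : addOrderOf (p ^ (a - 1) • g) = p := by
  rw [addOrderOf_nsmul' _ (pow_ne_zero _ hp.ne_zero), hg,
    Nat.gcd_eq_right (Nat.pow_dvd_pow p (Nat.sub_le a 1)), Nat.pow_div (Nat.sub_le a 1) hp.pos,
    show a - (a - 1) = 1 by omega, pow_one]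

theorem ne_zero_of_order (hp : p.Prime) {x : (E.toAffine⁄Qb).Point} (hx : addOrderOf x = p) :
    x ≠ 0 := fun h => by
  rw [h, addOrderOf_zero] at hx
  exact hp.one_lt.ne hx

/-- A nonzero multiple of an element of prime order generates it. -/
theorem mem_of_mem_prime (hp : p.Prime) {x y : (E.toAffine⁄Qb).Point} (hy : addOrderOf y = p)
    (hxy : x ∈ AddSubgroup.zmultiples y) (hx : x ≠ 0) : y ∈ AddSubgroup.zmultiples x := by
  obtain ⟨a, rfl⟩ := AddSubgroup.mem_zmultiples_iff.1 hxy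
  have hna : ¬ (p : ℤ) ∣ a := fun h => hx (addOrderOf_dvd_iff_zsmul_eq_zero.1 (hy ▸ h))
  obtain ⟨u, v, huv⟩ := (Nat.prime_iff_prime_int.1 hp).coprime_iff_not_dvd.2 hna
  have hy0 : (p : ℤ) • y = 0 := by rw [natCast_zsmul, ← hy, addOrderOf_nsmul_eq_zero]
  refine AddSubgroup.mem_zmultiples_iff.2 ⟨v, ?_⟩
  conv_rhs => rw [← one_zsmul y, ← huv, add_zsmul, mul_zsmul, hy0, zsmul_zero, zero_add,
    mul_zsmul]

/-- The multiples killed by `p` are multiples of the top one. -/
theorem mem_top (hp : p.Prime) {g x : (E.toAffine⁄Qb).Point} {a : ℕ}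
    (hg : addOrderOf g = p ^ a) (hxg : x ∈ AddSubgroup.zmultiples g) (hx : p • x = 0) :
    x ∈ AddSubgroup.zmultiples (p ^ (a - 1) • g) := by
  obtain ⟨c, rfl⟩ := AddSubgroup.mem_zmultiples_iff.1 hxg
  rw [← natCast_zsmul, ← mul_zsmul] at hx
  have hd := addOrderOf_dvd_iff_zsmul_eq_zero.2 hx
  rw [hg, Nat.cast_pow] at hd
  obtain ⟨d, rfl⟩ : ((p : ℤ) ^ (a - 1)) ∣ c := by
    rcases a with _ | a
    · simp
    · rw [pow_succ'] at hd
      simpa using (mul_dvd_mul_iff_left (Int.natCast_ne_zero.2 hp.ne_zero)).1 hd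
  exact AddSubgroup.mem_zmultiples_iff.2 ⟨d, by
    rw [← natCast_zsmul, ← mul_zsmul]; congr 1; push_cast; ring⟩

/-- Points of `p`-power order are divisible. -/
theorem exists_div (hp : p.Prime) {h : (E.toAffine⁄Qb).Point} {B : ℕ} (hh : p ^ B • h = 0)
    (A : ℕ) : ∃ P, p ^ A • P = h := by
  obtain ⟨y, hy⟩ := FA.TateModules.exists_divisible E hp A
    ⟨h, AddCommGroup.mem_primaryComponent.mpr ⟨B, hh⟩⟩
  exact ⟨y.1, by rw [← AddSubgroup.coe_nsmul, hy]⟩

/-- A point of order `p` off a given cyclic group of `p`-power order. -/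
theorem exists_off (hp : p.Prime) {l : (E.toAffine⁄Qb).Point} {A : ℕ}
    (hl : addOrderOf l = p ^ A) : ∃ Q, addOrderOf Q = p ∧ Q ∉ AddSubgroup.zmultiples l := by
  haveI := Fact.mk hp
  by_contra hcon
  push Not at hcon
  set A' := Submodule.torsionBy ℤ (E.toAffine⁄Qb).Point (p : ℤ)
  set T := AddSubgroup.zmultiples (p ^ (A - 1) • l)
  have hcard : Nat.card T ≤ p := by
    rw [Nat.card_zmultiples]
    refine Nat.le_of_dvd hp.pos (addOrderOf_dvd_of_nsmul_eq_zero ?_)
    rcases A with _ | A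
    · rw [pow_zero, AddMonoid.addOrderOf_eq_one_iff] at hl
      simp [hl]
    · rw [← mul_nsmul', ← pow_succ', show A + 1 - 1 + 1 = A + 1 by omega, ← hl,
        addOrderOf_nsmul_eq_zero]
  haveI : Finite T := Nat.finite_of_card_ne_zero (by
    rw [Nat.card_zmultiples]
    intro h0
    have hfin : IsOfFinAddOrder l := addOrderOf_pos_iff.1 (hl ▸ pow_pos hp.pos A)
    exact (addOrderOf_pos_iff.2 hfin.nsmul).ne' h0)
  have hmem : ∀ X : A', X.1 ∈ T := fun X => by
    rcases eq_or_ne X.1 0 with h0 | h0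
    · rw [h0]; exact T.zero_mem
    · have hX : p • X.1 = 0 := mem_torsion.1 X.2
      exact mem_top hp hl (hcon _ (addOrderOf_eq_prime hX h0)) hX
  have h := Nat.card_le_card_of_injective (fun X : A' => (⟨X.1, hmem X⟩ : T)) fun X Y hXY =>
    Subtype.ext (congrArg (fun z : T => z.1) hXY)
  rw [natCard_torsion p hp.ne_zero] at h
  nlinarith [hp.two_le]

/-- A lift of `h` independent of `l`. -/
theorem exists_lift (hp : p.Prime) {l h : (E.toAffine⁄Qb).Point} {A B : ℕ} (hA : 1 ≤ A)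
    (hl : addOrderOf l = p ^ A) (hh : addOrderOf h = p ^ B)
    (htop : 1 ≤ B → p ^ (B - 1) • h ∉ AddSubgroup.zmultiples l) :
    ∃ P, p ^ A • P = h ∧ p ^ (A + B - 1) • P ∉ AddSubgroup.zmultiples l := by
  rcases Nat.eq_zero_or_pos B with rfl | hB
  · obtain ⟨Q, hQ, hQl⟩ := exists_off hp hl
    obtain ⟨P, hP⟩ := exists_div hp (B := 1)
      (by rw [pow_one, ← hQ, addOrderOf_nsmul_eq_zero]) (A - 1)
    rw [pow_zero, AddMonoid.addOrderOf_eq_one_iff] at hh
    refine ⟨P, ?_, by rwa [add_zero, hP]⟩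
    rw [hh, show p ^ A = p * p ^ (A - 1) by rw [← pow_succ', Nat.sub_add_cancel hA], mul_nsmul',
      hP, ← hQ, addOrderOf_nsmul_eq_zero]
  · obtain ⟨P, hP⟩ := exists_div hp (B := B) (by rw [← hh, addOrderOf_nsmul_eq_zero]) A
    refine ⟨P, hP, ?_⟩
    rw [show p ^ (A + B - 1) = p ^ (B - 1) * p ^ A by rw [← pow_add]; congr 1; omega, mul_nsmul',
      hP]
    exact htop hB

variable {θ : (E.toAffine⁄Qb).Point →+ (E'.toAffine⁄Qb).Point} {l : (E.toAffine⁄Qb).Point}

/-- **The lift**: the inverse image of `⟨h⟩` under `p ^ A` becomes cyclic. -/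
theorem IsQuot.lift (hθ : IsQuot θ l) (hp : p.Prime) {h P : (E.toAffine⁄Qb).Point} {A B : ℕ}
    (hA : 1 ≤ A) (hl : addOrderOf l = p ^ A) (hh : addOrderOf h = p ^ B) (hst : Stab h)
    (hP : p ^ A • P = h) (htop : p ^ (A + B - 1) • P ∉ AddSubgroup.zmultiples l) :
    addOrderOf (θ P) = p ^ (A + B) ∧ Stab (θ P) ∧
      ∀ X, p ^ A • X ∈ AddSubgroup.zmultiples h → θ X ∈ AddSubgroup.zmultiples (θ P) := by
  haveI := Fact.mk hp
  have hPA : p ^ (A + B) • P = 0 := by
    rw [pow_add, mul_comm, mul_nsmul', hP, ← hh, addOrderOf_nsmul_eq_zero]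
  have hord : addOrderOf (θ P) = p ^ (A + B) := by
    rw [show A + B = A + B - 1 + 1 by omega] at hPA ⊢
    exact addOrderOf_eq_prime_pow (fun h0 => htop ((hθ.ker _).1 (by rwa [map_nsmul])))
      (by rw [← map_nsmul, hPA, map_zero])
  have hB' : addOrderOf (p ^ B • P) = p ^ A := by
    rw [show A = A - 1 + 1 by omega]
    refine addOrderOf_eq_prime_pow (fun h0 => htop ?_) ?_
    · rw [← mul_nsmul', ← pow_add, show A - 1 + B = A + B - 1 by omega] at h0
      rw [h0]
      exact zero_mem _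
    · rw [← mul_nsmul', ← pow_add, show A - 1 + 1 + B = A + B by omega, hPA]
  have hdis := disjoint_of_top (g := l) hp hB' (by
    rw [← mul_nsmul', ← pow_add, show A - 1 + B = A + B - 1 by omega]
    exact htop)
  have key : ∀ X, p ^ A • X ∈ AddSubgroup.zmultiples h →
      θ X ∈ AddSubgroup.zmultiples (θ P) := fun X hX => by
    obtain ⟨j, hj⟩ := AddSubgroup.mem_zmultiples_iff.1 hX
    obtain ⟨a, b, hab⟩ := span_of_disjoint (pow_ne_zero A hp.ne_zero) hl hB' hdis
      (Y := X - j • P) (by rw [nsmul_sub, smul_comm, hP, hj, sub_self])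
    have := congrArg θ hab
    rw [map_add, map_zsmul, map_zsmul, (hθ.ker l).2 (AddSubgroup.mem_zmultiples l), zsmul_zero,
      zero_add, map_sub, map_zsmul, map_nsmul, eq_sub_iff_add_eq] at this
    rw [← this]
    exact add_mem (zsmul_mem (nsmul_mem (AddSubgroup.mem_zmultiples _) _) _)
      (zsmul_mem (AddSubgroup.mem_zmultiples _) _)
  refine ⟨hord, fun σ => ?_, key⟩
  obtain ⟨c, hc⟩ := hst σ
  obtain ⟨d, hd⟩ := AddSubgroup.mem_zmultiples_iff.1 (key (Affine.Point.map σ.toAlgHom P)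
    (AddSubgroup.mem_zmultiples_iff.2 ⟨c, by rw [← map_nsmul, hP, hc]⟩))
  exact ⟨d, hd.trans (hθ.gal σ P)⟩

/-- Orders prime to the degree are kept. -/
theorem IsQuot.hasStableOrder (hθ : IsQuot θ l) {m : ℕ} (hm : (addOrderOf l).Coprime m)
    (h : HasStableOrder E m) : HasStableOrder E' m := by
  obtain ⟨g, hg, hst⟩ := h
  refine ⟨θ g, Nat.dvd_antisymm ?_ ?_, hθ.stab hst⟩
  · exact addOrderOf_dvd_of_nsmul_eq_zero
      (by rw [← map_nsmul, ← hg, addOrderOf_nsmul_eq_zero, map_zero])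
  · refine hm.symm.dvd_of_dvd_mul_left ?_
    rw [← hg]
    refine addOrderOf_dvd_of_nsmul_eq_zero ?_
    have := (hθ.ker _).1 (show θ (addOrderOf (θ g) • g) = 0 by
      rw [map_nsmul, addOrderOf_nsmul_eq_zero])
    obtain ⟨k, hk⟩ := AddSubgroup.mem_zmultiples_iff.1 this
    rw [mul_nsmul', ← hk, ← natCast_zsmul, ← mul_zsmul, mul_comm, mul_zsmul, natCast_zsmul,
      addOrderOf_nsmul_eq_zero, zsmul_zero]

/-- A cyclic group through the kernel loses one factor `p`. -/
theorem IsQuot.drop (hθ : IsQuot θ l) (hp : p.Prime) (hl : addOrderOf l = p)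
    {g : (E.toAffine⁄Qb).Point} {a : ℕ} (hg : addOrderOf g = p ^ (a + 1))
    (hlg : l ∈ AddSubgroup.zmultiples g) : addOrderOf (θ g) = p ^ a := by
  haveI := Fact.mk hp
  have htop := order_top hp hg (by omega)
  rw [Nat.add_sub_cancel] at htop
  have hl' : l ∈ AddSubgroup.zmultiples (p ^ a • g) := by
    simpa using mem_top hp hg hlg (by rw [← hl, addOrderOf_nsmul_eq_zero])
  have h1 : p ^ a • θ g = 0 := by
    rw [← map_nsmul, hθ.ker]
    exact mem_of_mem_prime hp htop hl' (ne_zero_of_order hp hl)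
  rcases a with _ | a
  · simpa using h1
  · refine addOrderOf_eq_prime_pow (fun h0 => ?_) h1
    rw [← map_nsmul, hθ.ker] at h0
    obtain ⟨k, hk⟩ := AddSubgroup.mem_zmultiples_iff.1 h0
    refine ne_zero_of_order hp htop ?_
    rw [pow_succ', mul_nsmul', ← hk, smul_comm, ← hl, addOrderOf_nsmul_eq_zero, zsmul_zero]

/-- **The arms at a quotient**: beside the image of `g` a stable line off it. -/
theorem IsQuot.arm (hθ : IsQuot θ l) (hp : p.Prime) (hl : addOrderOf l = p)
    {g : (E.toAffine⁄Qb).Point} {a : ℕ} (hg : addOrderOf g = p ^ a)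
    (hlg : l ∈ AddSubgroup.zmultiples g) :
    ∃ M, addOrderOf M = p ∧ Stab M ∧ M ∉ AddSubgroup.zmultiples (θ g) := by
  obtain ⟨P, hP, htop⟩ := exists_lift hp le_rfl (l := l) (h := 0) (B := 0)
    (by rw [pow_one]; exact hl) (by simp) (fun h => absurd h (by omega))
  obtain ⟨ho, hs, -⟩ := hθ.lift hp le_rfl (B := 0) (by rw [pow_one]; exact hl)
    (by simp) (fun σ => ⟨0, by simp⟩) hP htop
  refine ⟨θ P, by simpa using ho, hs, fun hmem => ?_⟩
  obtain ⟨j, hj⟩ := AddSubgroup.mem_zmultiples_iff.1 hmem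
  have hk := (hθ.ker (P - j • g)).1 (by rw [map_sub, map_zsmul, hj, sub_self])
  have hPg : P ∈ AddSubgroup.zmultiples g := by
    have := add_mem (AddSubgroup.zmultiples_le_of_mem hlg hk)
      (zsmul_mem (AddSubgroup.mem_zmultiples g) j)
    rwa [sub_add_cancel] at this
  have hPp : p • P = 0 := by simpa using hP
  have h2 := mem_top hp hg hPg hPp
  have hl' := mem_top hp hg hlg (by rw [← hl, addOrderOf_nsmul_eq_zero])
  refine htop ?_
  have ha : 1 ≤ a := by
    rcases a with _ | a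
    · rw [pow_zero, AddMonoid.addOrderOf_eq_one_iff] at hg
      exact absurd (by simpa [hg] using hlg) (ne_zero_of_order hp hl)
    · omega
  simpa using AddSubgroup.zmultiples_le_of_mem
    (mem_of_mem_prime hp (order_top hp hg ha) hl' (ne_zero_of_order hp hl)) h2

/-- The images under the quotient by a line. -/
def moveMap (p : ℕ) (θ : (E.toAffine⁄Qb).Point →+ (E'.toAffine⁄Qb).Point)
    (l : (E.toAffine⁄Qb).Point) (H : AddSubgroup (E.toAffine⁄Qb).Point) :
    AddSubgroup (E'.toAffine⁄Qb).Point :=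
  open scoped Classical in
  if l ∈ H then H.map θ else (H.comap (nsmulAddMonoidHom p)).map θ

theorem IsQuot.moveMap_mem (hθ : IsQuot θ l) (hp : p.Prime) (hl : addOrderOf l = p)
    {H : AddSubgroup (E.toAffine⁄Qb).Point} (hH : H ∈ lineSet E p) :
    moveMap p θ l H ∈ lineSet E' p := by
  obtain ⟨a, g, hg, hst, rfl⟩ := hH
  unfold moveMap
  split_ifs with hlg
  · obtain _ | a := a
    · rw [pow_zero, AddMonoid.addOrderOf_eq_one_iff] at hg
      exact absurd (by simpa [hg] using hlg) (ne_zero_of_order hp hl)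
    exact ⟨a, θ g, hθ.drop hp hl hg hlg, hθ.stab hst, (AddMonoidHom.map_zmultiples θ g).symm⟩
  · obtain ⟨P, hP, htop⟩ := exists_lift hp le_rfl (by rw [pow_one]; exact hl) hg (fun ha hmem => by
      refine hlg (AddSubgroup.zmultiples_le_of_mem (nsmul_mem (AddSubgroup.mem_zmultiples g) _)
        (mem_of_mem_prime hp hl hmem (ne_zero_of_order hp (order_top hp hg ha)))))
    obtain ⟨ho, hs, hkey⟩ := hθ.lift hp le_rfl (by rw [pow_one]; exact hl) hg hst hP htop
    refine ⟨1 + a, θ P, ho, hs, le_antisymm ?_ ?_⟩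
    · refine AddSubgroup.zmultiples_le_of_mem ⟨P, ?_, rfl⟩
      simpa [AddSubgroup.mem_comap] using
        (show p • P ∈ AddSubgroup.zmultiples g by
          rw [← pow_one p, hP]; exact AddSubgroup.mem_zmultiples g)
    · rintro _ ⟨X, hX, rfl⟩
      refine hkey X ?_
      rw [pow_one]
      simpa [AddSubgroup.mem_comap] using hX

theorem IsQuot.moveMap_injOn (hθ : IsQuot θ l) (hp : p.Prime) (hl : addOrderOf l = p) :
    Set.InjOn (moveMap p θ l) (lineSet E p) := by
  have hker : θ.ker = AddSubgroup.zmultiples l := by ext X; exact hθ.ker X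
  have hpl : l ∈ (⊥ : AddSubgroup _).comap (nsmulAddMonoidHom p) := by
    simp [← hl, addOrderOf_nsmul_eq_zero]
  have hback : ∀ H : AddSubgroup (E.toAffine⁄Qb).Point, l ∈ H → (H.map θ).comap θ = H :=
    fun H hH => by
      rw [AddSubgroup.comap_map_eq, hker, sup_eq_left]
      exact AddSubgroup.zmultiples_le_of_mem hH
  have hlc : ∀ H : AddSubgroup (E.toAffine⁄Qb).Point, l ∈ H.comap (nsmulAddMonoidHom p) :=
    fun H => AddSubgroup.comap_mono bot_le hpl
  have hcyc : ∀ H ∈ lineSet E p, ∀ H' : AddSubgroup (E.toAffine⁄Qb).Point, l ∈ H →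
      H ≠ H'.comap (nsmulAddMonoidHom p) := by
    rintro _ ⟨a, g, hg, -, rfl⟩ H' _ he
    obtain ⟨Q, hQ, hQg⟩ := exists_off hp hg
    refine hQg (he ▸ ?_)
    simp [AddSubgroup.mem_comap, ← hQ, addOrderOf_nsmul_eq_zero]
  intro H hH H' hH' he
  unfold moveMap at he
  split_ifs at he with h1 h2 h2
  · rw [← hback H h1, he, hback H' h2]
  · have := congrArg (AddSubgroup.comap θ) he
    rw [hback H h1, hback _ (hlc H')] at this
    exact absurd this (hcyc H hH H' h1)
  · have := congrArg (AddSubgroup.comap θ) he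
    rw [hback _ (hlc H), hback H' h2] at this
    exact absurd this.symm (hcyc H' hH' H h2)
  · have := congrArg (AddSubgroup.comap θ) he
    rw [hback _ (hlc H), hback _ (hlc H')] at this
    have hdiv : ∀ K ∈ lineSet E p,
        (K.comap (nsmulAddMonoidHom p)).map (nsmulAddMonoidHom p) = K := by
      rintro _ ⟨a, g, hg, -, rfl⟩
      rw [AddSubgroup.map_comap_eq, inf_eq_right]
      refine AddSubgroup.zmultiples_le_of_mem ?_
      obtain ⟨P, hP⟩ := exists_div hp (B := a) (by rw [← hg, addOrderOf_nsmul_eq_zero]) 1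
      exact ⟨P, by simpa using hP⟩
    rw [← hdiv H hH, this, hdiv H' hH']

end FA.ClassBound

end
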