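import Fermat.Agent.EC.TorsionCard
import Fermat.Agent.IsogenyDegrees.FifteenTwentyOne
import Fermat.Agent.Root.SummaryWeilPairing

/-!
# Independent points of prime power order

Two such points span the torsion of that order, and of three pairwise independent ones not all
generate Galois stable subgroups at a level with a nonsquare unit: the pairing would make the
cyclotomic character a square.
-/

set_option autoImplicit false
set_option linter.style.haveILetI false
set_option linter.unusedSectionVars false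

noncomputable section

open WeierstrassCurve
open scoped WeierstrassCurve.Affine

local notation "Qb" => AlgebraicClosure ℚ
local notation "GQ" => AlgebraicClosure ℚ ≃ₐ[ℚ] AlgebraicClosure ℚ

namespace FA.ClassBound

variable {E : WeierstrassCurve ℚ} [E.IsElliptic]

/-- The multiples of `g` are stable. -/
def Stab (g : (E.toAffine⁄Qb).Point) : Prop :=
  ∀ σ : GQ, ∃ c : ℤ, c • g = Affine.Point.map σ.toAlgHom g

theorem Stab.zsmul {g : (E.toAffine⁄Qb).Point} (h : Stab g) (k : ℤ) : Stab (k • g) := fun σ => by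
  obtain ⟨c, hc⟩ := h σ
  exact ⟨c, by rw [map_zsmul, ← hc, zsmul_comm]⟩

theorem Stab.nsmul {g : (E.toAffine⁄Qb).Point} (h : Stab g) (k : ℕ) : Stab (k • g) := by
  simpa using h.zsmul (k : ℤ)

theorem natCard_torsion (n : ℕ) (hn : n ≠ 0) :
    Nat.card (Submodule.torsionBy ℤ (E.toAffine⁄Qb).Point (n : ℤ)) = n ^ 2 :=
  FA.EC.natCard_torsionBy (E.map (algebraMap ℚ Qb)) (n := n) (by exact_mod_cast hn)

theorem mem_torsion {n : ℕ} {X : (E.toAffine⁄Qb).Point} :
    X ∈ Submodule.torsionBy ℤ (E.toAffine⁄Qb).Point (n : ℤ) ↔ n • X = 0 := by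
  rw [Submodule.mem_torsionBy_iff, natCast_zsmul]

/-- Multiples of two points of order `p ^ k` meet only at `0` once the top multiples are
independent. -/
theorem disjoint_of_top {p k : ℕ} (hp : p.Prime) {g h : (E.toAffine⁄Qb).Point}
    (hh : addOrderOf h = p ^ k) (htop : p ^ (k - 1) • h ∉ AddSubgroup.zmultiples g) (a b : ℤ)
    (hab : a • g = b • h) : a • g = 0 := by
  rw [hab]
  refine addOrderOf_dvd_iff_zsmul_eq_zero.1 ?_
  rw [hh]
  by_contra hnd
  obtain ⟨i, hi, hgcd⟩ := (Nat.dvd_prime_pow hp).1 (Nat.gcd_dvd_right b.natAbs (p ^ k))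
  have hik : i < k := lt_of_le_of_ne hi fun he => hnd (by
    rw [he] at hgcd
    exact Int.natCast_dvd.2 (hgcd ▸ Nat.gcd_dvd_left b.natAbs (p ^ k)))
  have hbez := Int.gcd_eq_gcd_ab b ((p ^ k : ℕ) : ℤ)
  rw [show Int.gcd b ((p ^ k : ℕ) : ℤ) = p ^ i by rw [Int.gcd, Int.natAbs_natCast, hgcd]] at hbez
  refine htop (AddSubgroup.mem_zmultiples_iff.2
    ⟨(p : ℤ) ^ (k - 1 - i) * Int.gcdA b ((p ^ k : ℕ) : ℤ) * a, ?_⟩)
  have hh0 : ((p ^ k : ℕ) : ℤ) • h = 0 := by
    rw [natCast_zsmul, ← hh, addOrderOf_nsmul_eq_zero]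
  calc ((p : ℤ) ^ (k - 1 - i) * Int.gcdA b ((p ^ k : ℕ) : ℤ) * a) • g
      = ((p : ℤ) ^ (k - 1 - i) * Int.gcdA b ((p ^ k : ℕ) : ℤ) * b) • h := by
        rw [mul_zsmul, hab, ← mul_zsmul]
    _ = ((p : ℤ) ^ (k - 1 - i) * ((p ^ i : ℕ) : ℤ)) • h -
          ((p : ℤ) ^ (k - 1 - i) * Int.gcdB b ((p ^ k : ℕ) : ℤ)) • ((p ^ k : ℕ) : ℤ) • h := by
        rw [← mul_zsmul, ← sub_smul, hbez]; congr 1; ring
    _ = p ^ (k - 1) • h := by
        rw [hh0, zsmul_zero, sub_zero, ← natCast_zsmul, Nat.cast_pow, Nat.cast_pow, ← pow_add,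
          show k - 1 - i + i = k - 1 by omega]

/-- Independent points span. -/
theorem span_of_disjoint {n : ℕ} (hn : n ≠ 0) {g h : (E.toAffine⁄Qb).Point}
    (hg : addOrderOf g = n) (hh : addOrderOf h = n)
    (hd : ∀ a b : ℤ, a • g = b • h → a • g = 0) {Y : (E.toAffine⁄Qb).Point} (hY : n • Y = 0) :
    ∃ a b : ℤ, a • g + b • h = Y := by
  haveI : NeZero n := ⟨hn⟩
  set A := Submodule.torsionBy ℤ (E.toAffine⁄Qb).Point (n : ℤ)
  haveI : Finite A := Nat.finite_of_card_ne_zero (by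
    rw [natCard_torsion n hn]; exact pow_ne_zero 2 hn)
  have hg0 : n • g = 0 := by rw [← hg, addOrderOf_nsmul_eq_zero]
  have hh0 : n • h = 0 := by rw [← hh, addOrderOf_nsmul_eq_zero]
  let f : ZMod n × ZMod n → A := fun w => ⟨(w.1.val : ℤ) • g + (w.2.val : ℤ) • h, mem_torsion.2 (by
    rw [nsmul_add, smul_comm, hg0, smul_comm, hh0, zsmul_zero, zsmul_zero, add_zero])⟩
  have hinj : Function.Injective f := fun u v huv => by
    have e := congrArg Subtype.val huv
    simp only [f] at e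
    have e' : ((u.1.val : ℤ) - v.1.val) • g = ((v.2.val : ℤ) - u.2.val) • h := by
      rw [sub_smul, sub_smul]
      linear_combination (norm := abel) e
    have h1 := hd _ _ e'
    have d1 := addOrderOf_dvd_iff_zsmul_eq_zero.2 h1
    have d2 := addOrderOf_dvd_iff_zsmul_eq_zero.2 (e'.symm.trans h1)
    rw [hg] at d1
    rw [hh] at d2
    refine Prod.ext ?_ ?_
    · have := (ZMod.intCast_zmod_eq_zero_iff_dvd _ n).2 d1
      push_cast at this
      simpa [sub_eq_zero] using this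
    · have := (ZMod.intCast_zmod_eq_zero_iff_dvd _ n).2 d2
      push_cast at this
      simpa [sub_eq_zero, eq_comm] using this
  obtain ⟨w, hw⟩ := ((Nat.bijective_iff_injective_and_card f).2 ⟨hinj, by
    rw [natCard_torsion n hn, Nat.card_prod, Nat.card_zmod, sq]⟩).2 ⟨Y, mem_torsion.2 hY⟩
  exact ⟨_, _, congrArg Subtype.val hw⟩

/-- Galois raises a root of unity to every unit exponent. -/
theorem exists_aut_pow {n u : ℕ} (hn : 0 < n) {ζ : Qb} (hζ : IsPrimitiveRoot ζ n)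
    (hu : u.Coprime n) : ∃ σ : GQ, σ ζ = ζ ^ u := by
  refine minpoly.exists_algEquiv_of_root (Algebra.IsAlgebraic.isAlgebraic _) ?_
  rw [← Polynomial.cyclotomic_eq_minpoly_rat (hζ.pow_of_coprime u hu) hn,
    Polynomial.cyclotomic_eq_minpoly_rat hζ hn]
  exact minpoly.aeval _ _

/-- **Not three stable lines**: three pairwise independent points of order `n`, with stable
multiples, force every unit modulo `n` to be a square. -/
theorem false_of_three {n : ℕ} (hn : n ≠ 0) {g : Fin 3 → (E.toAffine⁄Qb).Point}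
    (hg : ∀ i, addOrderOf (g i) = n) (hst : ∀ i, Stab (g i))
    (hd : ∀ i j, i ≠ j → ∀ a b : ℤ, a • g i = b • g j → a • g i = 0) {u : ℕ} (hu : u.Coprime n)
    (hns : ∀ c : ZMod n, c ^ 2 ≠ u) : False := by
  haveI : NeZero n := ⟨hn⟩
  obtain ⟨e, hpow, hml, hmr, hself, hnd, hgal⟩ := FA.Summary.weilPairing_exists E hn
  have hk : ∀ (k : ℕ) {P : (E.toAffine⁄Qb).Point}, n • P = 0 → n • (k • P) = 0 := fun k P hP => by
    rw [smul_comm, hP, nsmul_zero]
  have hone : ∀ x : Qb, x ^ n = 1 → x = x * x → x = 1 := fun x hx h2 => by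
    have hx0 : x ≠ 0 := fun h => by rw [h, zero_pow hn] at hx; exact zero_ne_one hx
    exact (mul_eq_left₀ hx0).1 h2.symm
  have hL : ∀ (k : ℕ) P Q, n • P = 0 → n • Q = 0 → e (k • P) Q = e P Q ^ k := fun k => by
    induction k with
    | zero =>
      intro P Q hP hQ
      rw [zero_nsmul, pow_zero]
      exact hone _ (hpow _ _ (nsmul_zero n) hQ)
        (by rw [← hml _ _ _ (nsmul_zero n) (nsmul_zero n) hQ, add_zero])
    | succ k ih =>
      intro P Q hP hQ
      rw [succ_nsmul, hml _ _ _ (hk k hP) hP hQ, ih P Q hP hQ, pow_succ]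
  have hR : ∀ (k : ℕ) P Q, n • P = 0 → n • Q = 0 → e P (k • Q) = e P Q ^ k := fun k => by
    induction k with
    | zero =>
      intro P Q hP hQ
      rw [zero_nsmul, pow_zero]
      exact hone _ (hpow _ _ hP (nsmul_zero n))
        (by rw [← hmr _ _ _ hP (nsmul_zero n) (nsmul_zero n), add_zero])
    | succ k ih =>
      intro P Q hP hQ
      rw [succ_nsmul, hmr _ _ _ hP (hk k hQ) hQ, ih P Q hP hQ, pow_succ]
  have hgn : ∀ i, n • g i = 0 := fun i => by rw [← hg i, addOrderOf_nsmul_eq_zero]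
  have hnat : ∀ i (c : ℤ), ∃ k : ℕ, k • g i = c • g i := fun i c => ⟨(c % n).toNat, by
    rw [← natCast_zsmul, Int.toNat_of_nonneg (Int.emod_nonneg _ (by exact_mod_cast hn)), ← hg i,
      mod_addOrderOf_zsmul]⟩
  have hprim : ∀ i j, i ≠ j → IsPrimitiveRoot (e (g i) (g j)) n := fun i j hij =>
    ⟨hpow _ _ (hgn i) (hgn j), fun m hm => by
      rw [← hg i]
      refine addOrderOf_dvd_of_nsmul_eq_zero (hnd _ (hk m (hgn i)) fun Q hQ => ?_)
      obtain ⟨a, b, rfl⟩ := span_of_disjoint hn (hg i) (hg j) (hd i j hij) hQ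
      obtain ⟨a', ha⟩ := hnat i a
      obtain ⟨b', hb⟩ := hnat j b
      rw [← ha, ← hb, hmr _ _ _ (hk m (hgn i)) (hk a' (hgn i)) (hk b' (hgn j)),
        hR a' _ _ (hk m (hgn i)) (hgn i), hR b' _ _ (hk m (hgn i)) (hgn j),
        hL m _ _ (hgn i) (hgn i), hL m _ _ (hgn i) (hgn j), hself _ (hgn i), hm]
      simp⟩
  obtain ⟨σ, hσ⟩ := exists_aut_pow (Nat.pos_of_ne_zero hn) (hprim 0 1 (by decide)) hu
  choose c hc using fun i => hst i σ
  choose k hk' using fun i => hnat i (c i)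
  have key : ∀ i j, i ≠ j → ∀ v : ℕ, σ (e (g i) (g j)) = e (g i) (g j) ^ v →
      ((k i : ZMod n) * k j = v) := fun i j hij v hv => by
    have h := hgal σ _ _ (hgn i) (hgn j)
    rw [← hc i, ← hc j, ← hk' i, ← hk' j, hL _ _ _ (hgn i) (hk _ (hgn j)),
      hR _ _ _ (hgn i) (hgn j), ← pow_mul, hv] at h
    have := (hprim i j hij).pow_inj
    rw [← Nat.cast_mul, mul_comm (k i), ← ZMod.natCast_mod (k j * k i), ← ZMod.natCast_mod v]
    congr 1
    refine (hprim i j hij).pow_inj (Nat.mod_lt _ (Nat.pos_of_ne_zero hn))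
      (Nat.mod_lt _ (Nat.pos_of_ne_zero hn)) ?_
    rw [← pow_eq_pow_mod _ (hpow _ _ (hgn i) (hgn j)),
      ← pow_eq_pow_mod _ (hpow _ _ (hgn i) (hgn j)), h]
  have hv : ∀ i j, i ≠ j → σ (e (g i) (g j)) = e (g i) (g j) ^ u := fun i j hij => by
    obtain ⟨w, -, hw⟩ := (hprim 0 1 (by decide)).eq_pow_of_pow_eq_one
      (hpow _ _ (hgn i) (hgn j))
    rw [← hw, map_pow, hσ, ← pow_mul, ← pow_mul, mul_comm]
  have h01 := key 0 1 (by decide) u (hv _ _ (by decide))
  have h02 := key 0 2 (by decide) u (hv _ _ (by decide))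
  have h12 := key 1 2 (by decide) u (hv _ _ (by decide))
  have hunit : IsUnit (u : ZMod n) := (ZMod.isUnit_iff_coprime u n).2 hu
  refine hns (k 0 : ZMod n) (hunit.mul_right_cancel ?_)
  linear_combination (k 0 : ZMod n) ^ 2 * h12.symm + (k 0 : ZMod n) * k 2 * h01 +
    (u : ZMod n) * h02

end FA.ClassBound

end
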